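import Mathlib
import Fermat.Agent.DS.C.Defs
import Fermat.Agent.DS.C.Good
import Fermat.Agent.DS.C.JBar
import Fermat.Agent.DS.C.Incl
import Fermat.Agent.DS.C.RH.Ram
import Fermat.Agent.DS.C.D.Main
import Fermat.Agent.S18.Core.Defs
import Fermat.Agent.S18.V.Defs

/-!
# Program DS, package (C), row C4 (S18′) : THE INPUTS of the core claim, as hypotheses

* `dsc_level_le`, `dsc_bar_level_le` : `F₁(M) ≤ F₁(a·M)` (helper2's `DS/C/Incl.lean`), over any
  field and over `ℚ̄`;
* `DscCoreLevel A M P` : the two level-specific inputs of the core claim at the level `(M, P)` for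
  the valuation ring `𝔸` of `ℚ̄`:
  - `level` : `dscFieldBar M P` is the function field of a level datum over `ℚ̄` whose common cusp
    width divides `M·P` (rows C1c/C2; gives the ramification of `dscFieldBar M P / ℚ̄(j)`,
    `DS/C/RH/Ram.lean`);
  - `coord` : `j` is a good coordinate of `dscFieldC E M P` for the Gauss valuation of `𝔸 ∩ E`,
    every number field `E` (row C4-V + IGUSA, row C3).
  Everything in `DS/C/RH/*` and `DS/C/Core/{Large,Small}.lean` is proved from these hypotheses
  (no stub); they are discharged in `DS/C/Core/Main.lean`, at the `X₁`-type levels `(M', 1)`,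
  `M' ∈ {M, 2M, 3M}` only.
The descent package D′ (`dscd_up_mem`, `dscd_cusp_place`, `dscd_descend`; helper3, `DS/C/D/Main.lean`)
is unconditional and imported.
-/

set_option autoImplicit false
set_option linter.unusedSectionVars false
set_option linter.unusedVariables false
set_option synthInstance.maxHeartbeats 400000

noncomputable section

namespace Fermat.Agent.DS

open ModularCurve AlgebraicCurve IsLocalRing Polynomial IntermediateField Fermat.Agent.S18

local notation "Qb" => AlgebraicClosure ℚ

/-- (LE) `F₁(M) ≤ F₁(a·M)` over any field (same variable `q`). -/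
theorem dsc_level_le (K : Type*) [Field K] (M a : ℕ) [NeZero M] [NeZero a] :
    dscFieldC K M 1 ≤ dscFieldC K (a * M) 1 := dscin_field_le_one K M a

/-- the same over `ℚ̄`. -/
theorem dsc_bar_level_le (M a : ℕ) [NeZero M] [NeZero a] :
    dscFieldBar M 1 ≤ dscFieldBar (a * M) 1 := by
  apply IntermediateField.adjoin.mono
  apply Set.image_mono
  intro x hx
  exact dsc_level_le ℚ M a hx

/-- THE LEVEL-SPECIFIC INPUTS of the core claim at the level `(M, P)` for the valuation ring `𝔸`. -/
structure DscCoreLevel (A : ValuationSubring Qb) (M P : ℕ) : Prop where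
  /-- `dscFieldBar M P` is the function field of a level datum over `ℚ̄` -/
  level : DscHasLevel M P
  /-- `j` is a good coordinate for the Gauss valuation of `𝔸 ∩ E`, every number field `E` -/
  coord : ∀ (E : IntermediateField ℚ Qb) [FiniteDimensional ℚ E]
    [IsDiscreteValuationRing (s18dVal A E)] [CharZero (s18dVal A E)]
    (ϖ : s18dVal A E) (hϖ : Irreducible ϖ),
    S18Coord hϖ (dscFieldC E M P) ⟨jqModC E, dsc_jq_mem E M P⟩

end Fermat.Agent.DS
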