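import Mathlib
import Fermat.Agent.S18.Core.Spec
import Fermat.Agent.DS.C.RH.Main
import Fermat.Agent.DS.C.Core.Defs

/-!
# Program DS, package (C), row C4 (S18′) : the core claim at level `(M, P)` for `ℓ ≥ 5`
(`dsc_core_large`)

Port of the `Assembly` section of `S18/Core/Spec.lean` (`s18_core_large`).  The number-field core
`s18c_numberfield` (theorem (T)), `s18d_isDVR`, `s18d_res_eq_iff`, `s18d_up_incl`,
`s18d_natCast_mem` are generic and imported as they are; the level-specific inputs are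
`dscd_cusp_place`, `dscd_descend`, `dscd_up_mem` (D′, imported), `dscrh_RH` and the hypothesis
`hC : DscCoreLevel A M P` (level datum + `j` is a good coordinate; `Core/Defs.lean`).
-/

set_option autoImplicit false
set_option linter.unusedSectionVars false
set_option synthInstance.maxHeartbeats 400000

noncomputable section

namespace Fermat.Agent.DS

open ModularCurve AlgebraicCurve IsLocalRing Polynomial IntermediateField Fermat.Agent.S18

/-! ### Assembly of the core claim -/

section Assembly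

variable (M P : ℕ) [NeZero M] [NeZero P] {ℓ : ℕ} [Fact ℓ.Prime]
variable (A : ValuationSubring (AlgebraicClosure ℚ))

set_option maxHeartbeats 1000000 in
/-- `ℓ ≥ 5`. -/
theorem dsc_core_large (hC : DscCoreLevel A M P) (hℓN : ¬ ℓ ∣ M * P) (hA : A.LiesOverPrime ℓ)
    (hℓ5 : 5 ≤ ℓ)
    (p : ℕ) (hp : p.Prime) (hpℓ : p ≠ ℓ)
    (u₁ u₂ : LaurentSeries A) (h₁ : DscGood M P A u₁) (h₂ : DscGood M P A u₂)
    (hred : coeffMap (residue A) u₁ = coeffMap (residue A) u₂)
    (hne : coeffMap (residue A) u₁ ≠ 0)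
    (hdiv : ∀ Q : Place (AlgebraicClosure ℚ) (dscFieldBar M P),
      (p : ℤ) ∣ Q.ord h₁.gen - Q.ord h₂.gen) :
    ∃ g : dscFieldBar M P, g ^ p * h₂.gen = h₁.gen := by
  have hne2 : coeffMap (residue A) u₂ ≠ 0 := hred ▸ hne
  have hu₁ : u₁ ≠ 0 := fun h => hne (by rw [h, map_zero])
  have hu₂ : u₂ ≠ 0 := fun h => hne2 (by rw [h, map_zero])
  have hinj : Function.Injective (coeffMap A.subtype) := by
    intro x y hxy
    ext k
    have := congrArg (fun s => HahnSeries.coeff s k) hxy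
    simpa using this
  have hg₁ : h₁.gen ≠ 0 := fun h => hu₁ (hinj (by rw [map_zero]; exact congrArg Subtype.val h))
  have hg₂ : h₂.gen ≠ 0 := fun h => hu₂ (hinj (by rw [map_zero]; exact congrArg Subtype.val h))
  -- the cusp `∞`
  obtain ⟨Pinf, hPinf⟩ := dscd_cusp_place M P
  have hord : (p : ℤ) ∣ (coeffMap A.subtype u₁).order - (coeffMap A.subtype u₂).order := by
    have := hdiv Pinf
    rwa [hPinf _ hg₁, hPinf _ hg₂] at this
  -- descent
  have hn : 0 < 6 * (M * P) * p :=
    Nat.mul_pos (Nat.mul_pos (by norm_num) (NeZero.pos (M * P))) hp.pos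
  obtain ⟨E, hfin, ζ, hζ, v₁, v₂, y, e₁, e₂, m₁, m₂, hy⟩ :=
    dscd_descend A M P (6 * (M * P) * p) hn p hp u₁ u₂ h₁ h₂ hu₂ hord
  haveI := hfin
  haveI : IsDiscreteValuationRing (s18dVal A E) := s18d_isDVR A E hA
  obtain ⟨ϖ, hϖ⟩ := IsDiscreteValuationRing.exists_irreducible (s18dVal A E)
  haveI : CharZero (s18dVal A E) := ⟨fun a b h => by
    have h1 := congrArg (fun x : s18dVal A E => (x : E)) h
    simpa using h1⟩
  have hζp : IsPrimitiveRoot (ζ ^ (6 * (M * P))) p :=
    hζ.pow hn (by ring)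
  have hζ6 : IsPrimitiveRoot (ζ ^ p) (6 * (M * P)) :=
    hζ.pow hn (by ring)
  have hv₂0 : v₂ ≠ 0 := fun h => hu₂ (by rw [← e₂, h, map_zero])
  have hℓmem := s18d_natCast_mem (ℓ := ℓ) A E hA
  -- `p` is a unit
  have hpu : IsUnit ((p : ℕ) : s18dVal A E) := by
    have hcop : Nat.Coprime p ℓ := (Nat.coprime_primes hp Fact.out).mpr hpℓ
    obtain ⟨a, b, hab⟩ : ∃ a b : ℤ, a * p + b * ℓ = 1 := by
      have := Int.gcd_eq_gcd_ab p ℓ
      rw [Int.gcd_natCast_natCast, hcop.gcd_eq_one] at this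
      exact ⟨Int.gcdA p ℓ, Int.gcdB p ℓ, by push_cast at this; linarith⟩
    have h1 : ((a : s18dVal A E)) * (p : s18dVal A E) = 1 - (b : s18dVal A E) * (ℓ : s18dVal A E) := by
      have := congrArg (Int.cast : ℤ → s18dVal A E) hab
      push_cast at this
      linear_combination this
    have h2 : IsUnit (1 - (b : s18dVal A E) * (ℓ : s18dVal A E)) := by
      by_contra hnu
      have h3 : (1 - (b : s18dVal A E) * (ℓ : s18dVal A E)) ∈ maximalIdeal (s18dVal A E) := hnu
      have h4 : (b : s18dVal A E) * (ℓ : s18dVal A E) ∈ maximalIdeal (s18dVal A E) :=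
        Ideal.mul_mem_left _ _ hℓmem
      have h5 := Ideal.add_mem _ h3 h4
      rw [sub_add_cancel] at h5
      exact (Ideal.ne_top_iff_one _).mp (maximalIdeal.isMaximal _).ne_top h5
    rw [← h1] at h2
    exact isUnit_of_mul_isUnit_right h2
  -- reductions
  have hredv : s18vRes (s18dVal A E) v₁ = s18vRes (s18dVal A E) v₂ := by
    rw [s18d_res_eq_iff, e₁, e₂]; exact hred
  have hnev : s18vRes (s18dVal A E) v₁ ≠ 0 := by
    intro h0
    have := (s18d_res_eq_iff A E v₁ 0).mp (by rw [h0, map_zero])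
    rw [e₁, map_zero, map_zero] at this
    exact hne this
  -- the ramification hypotheses
  obtain ⟨S, S', h0, hinf⟩ := dscrh_RH A E M P hC.level hℓN hA hℓ5 ϖ hϖ (ζ ^ p) hζ6 p hp hpℓ v₁ v₂ m₁ m₂ hv₂0 y hy
    (by
      intro k₁ k₂ Q
      have q₁ : (⟨_, k₁⟩ : dscFieldBar M P) = h₁.gen :=
        Subtype.ext (by
          show s18dUp E (s18vIncl (s18dVal A E) E v₁) = coeffMap A.subtype u₁
          rw [s18d_up_incl, e₁])
      have q₂ : (⟨_, k₂⟩ : dscFieldBar M P) = h₂.gen :=
        Subtype.ext (by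
          show s18dUp E (s18vIncl (s18dVal A E) E v₂) = coeffMap A.subtype u₂
          rw [s18d_up_incl, e₂])
      rw [q₁, q₂]
      exact hdiv Q)
  have hcoord := hC.coord E ϖ hϖ
  have hyF := s18c_numberfield hϖ _ _ hcoord p hp hpu (ζ ^ (6 * (M * P))) hζp v₁ v₂ m₁ m₂ hredv hnev y hy
    S S' h0 hinf
  refine ⟨⟨s18dUp E y, dscd_up_mem E M P y hyF⟩, Subtype.ext ?_⟩
  show s18dUp E y ^ p * coeffMap A.subtype u₂ = coeffMap A.subtype u₁
  have := congrArg (s18dUp E) hy
  rw [map_mul, map_pow, s18d_up_incl, s18d_up_incl, e₁, e₂] at this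
  exact this

end Assembly

end Fermat.Agent.DS
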