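import Mathlib
import Fermat.Agent.DS.C.Br.Level
import Fermat.Agent.DS.C.V.Descent
import Fermat.Agent.DS.C.Core.Defs

/-!
# Program DS, package (C), row C4 (S18′) : the inputs of the core claim at the `X₁`-levels `(M, 1)`

* `DscHasLevel M 1` is `dscbr_hasLevel M` (the level datum `dscbrLevel ℚ̄ iotaBar M` of the bridge
  row C1c, helper16 / helper17, `DS/C/Br/Level.lean`; every `M ≥ 1`);
* `DscIgusaAt M ℓ`     : the IGUSA input at the level `(M, 1)` (row C3) in the shape of helper3's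
  `DscvIgusa`: for ONE field `k₁` of characteristic `ℓ` (e.g. `kBar ℓ`), `dscFieldC k₁ M 1 / k₁(j)`
  is finite separable of degree at least `[dscFieldBar M 1 : ℚ̄(j)]`;
* `dsc_coreLevel_one`  : `DscIgusaAt M ℓ → DscCoreLevel 𝔸 M 1` (helper3's `dscvd_coord_j`,
  `V/Descent.lean`).
-/

set_option autoImplicit false
set_option linter.unusedSectionVars false
set_option linter.unusedVariables false
set_option linter.style.haveILetI false
set_option synthInstance.maxHeartbeats 400000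

noncomputable section

namespace Fermat.Agent.DS

open ModularCurve AlgebraicCurve IsLocalRing Polynomial IntermediateField Fermat.Agent.S24
  Fermat.Agent.S18

local notation "Qb" => AlgebraicClosure ℚ

/-- (IGUSA, row C3) at the level `(M, 1)`, in residue characteristic `ℓ`. -/
def DscIgusaAt (M ℓ : ℕ) : Prop :=
  ∀ (_ : NeZero M), ∃ (k₁ : Type) (_ : Field k₁) (_ : CharP k₁ ℓ),
    DscvIgusa k₁ M 1 (Module.finrank Qb⟮dscvJBar M 1⟯ (dscFieldBar M 1))

/-- `DscvIgusa` is antitone in the degree. -/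
theorem dsc_core_igusa_mono {k : Type*} [Field k] (M P : ℕ) [NeZero M] [NeZero P] {d d' : ℕ}
    (h : d' ≤ d) (hI : DscvIgusa k M P d) : DscvIgusa k M P d' :=
  ⟨hI.1, hI.2.1, h.trans hI.2.2⟩

/-- IGUSA at `(M, 1)` from a degree bound over `ℚ̄` and IGUSA over one field of
characteristic `ℓ` with the same `d` (the shape of helper3's `dscv_inputs_one`). -/
theorem dsc_igusaAt_of (M : ℕ) {ℓ : ℕ} (k₁ : Type) [Field k₁] [CharP k₁ ℓ]
    (h : ∀ (_ : NeZero M), ∃ d : ℕ, DscvDegBar M 1 d ∧ DscvIgusa k₁ M 1 d) : DscIgusaAt M ℓ := by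
  intro hM
  obtain ⟨d, h0, hI⟩ := h hM
  exact ⟨k₁, inferInstance, inferInstance, dsc_core_igusa_mono M 1 h0.2 hI⟩

/-- the inputs of the core claim at the level `(M, 1)`, from IGUSA. -/
theorem dsc_coreLevel_one (M : ℕ) [NeZero M] {ℓ : ℕ} [Fact ℓ.Prime] (A : ValuationSubring Qb)
    (hA : A.LiesOverPrime ℓ) (hI : DscIgusaAt M ℓ) : DscCoreLevel A M 1 where
  level := dscbr_hasLevel M
  coord := by
    intro E _ _ _ ϖ hϖ
    have hℓmem := s18d_natCast_mem (ℓ := ℓ) A E hA
    obtain ⟨k₁, _, _, hI₁⟩ := hI inferInstance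
    exact dscvd_coord_j hϖ hℓmem M 1 _ ⟨dscbr_finiteDimensional_bar M, le_rfl⟩ k₁ hI₁

end Fermat.Agent.DS
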