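import Mathlib
import Fermat.Agent.S18.Core.Small
import Fermat.Agent.DS.C.RH.Small
import Fermat.Agent.DS.C.Core.Large

/-!
# Program DS, package (C), row C4 (S18′) : the core claim at level `(M, P)` for `ℓ ∈ {2, 3}`
(`dsc_core_small`)

Port of `S18/Core/Small.lean`.  Auxiliary level `a = 3` for `ℓ = 2`, `a = 2` for `ℓ = 3`; the level
pair is abstract, `(M, P) ⊂ (M', P')` with `a ∣ M'·P'`; in the final statement it is
`(M, 1) ⊂ (M, 1)` if `a ∣ M` and `(M, 1) ⊂ (a·M, 1)` otherwise (`dsc_level_le`).  The coordinate is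
the Hauptmodul `h_a` of `Γ₀(a)` (level-free, `S18/H/*` imported as it is);
`h_a ∈ dscFieldC K M' P'` through `dsc_full_le`.  Theorem (T) applies to
`dscFieldC E M' P' (y) / E(h_a)`; then one descends from level `(M', P')` to level `(M, P)` with the
uniqueness of the Gauss valuation (`s18c_level_descent`, generic).  The level-specific inputs are
the hypotheses `DscCoreLevel A M P`, `DscCoreLevel A M' P'` (`Core/Defs.lean`).
-/

set_option autoImplicit false
set_option linter.unusedSectionVars false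
set_option synthInstance.maxHeartbeats 400000

noncomputable section

namespace Fermat.Agent.DS

open ModularCurve AlgebraicCurve IsLocalRing Polynomial IntermediateField Fermat.Agent.S18

section NumberField

variable {A₀ : Type*} [CommRing A₀] [IsDomain A₀] [IsDiscreteValuationRing A₀] [CharZero A₀]
variable {L₀ : Type*} [Field L₀] [Algebra A₀ L₀] [IsFractionRing A₀ L₀]
variable {ϖ : A₀}

/-- `h_a` is a modular function of level `(M, P)` as soon as `a ∣ M·P`. -/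
theorem dsch_mem (K : Type*) [Field K] [CharZero K] (a : ℕ) [NeZero a] (ha : a = 2 ∨ a = 3)
    (M P : ℕ) [NeZero M] [NeZero P] (haM : a ∣ M * P) :
    s18hq a (s18hExp a) K ∈ dscFieldC K M P :=
  dsc_full_le K M P (s18h_mem K a ha (M * P) haM)

/-- `h_a` is a good coordinate of `dscFieldC L₀ M P` as soon as `j` is one
(the abstract `s18hk_coord_of_coord`). -/
theorem dsch_coord [CharZero L₀] (hϖ : Irreducible ϖ) (a : ℕ) [NeZero a] (ha : a = 2 ∨ a = 3)
    (M P : ℕ) [NeZero M] [NeZero P] (hmem : s18hq a (s18hExp a) L₀ ∈ dscFieldC L₀ M P)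
    (hcj : S18Coord hϖ (dscFieldC L₀ M P) ⟨jqModC L₀, dsc_jq_mem L₀ M P⟩) :
    S18Coord hϖ (dscFieldC L₀ M P) ⟨s18hq a (s18hExp a) L₀, hmem⟩ := by
  refine s18hk_coord_of_coord hϖ _ _ _ (jqModC A₀) (s18hq a (s18hExp a) A₀) (dscv_pole_j M P)
    (s18hk_pole _ a (s18hExp a) hmem) ?_ hcj
  rcases ha with rfl | rfl
  · exact s18hk_j_mem_two _ s18h_identity_two _ hmem
  · exact s18hk_j_mem_three _ s18h_identity_three _ hmem

end NumberField

/-! ### Assembly -/

section Assembly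

variable (M P : ℕ) [NeZero M] [NeZero P] {ℓ : ℕ} [Fact ℓ.Prime]
variable (A : ValuationSubring (AlgebraicClosure ℚ))

set_option maxHeartbeats 1000000 in
theorem dsc_core_small_aux (hC : DscCoreLevel A M P) (hℓN : ¬ ℓ ∣ M * P) (hA : A.LiesOverPrime ℓ)
    (a : ℕ) [NeZero a] (ha : (ℓ = 2 ∧ a = 3) ∨ (ℓ = 3 ∧ a = 2))
    (M' P' : ℕ) [NeZero M'] [NeZero P'] (hC' : DscCoreLevel A M' P')
    (hleE : ∀ E : IntermediateField ℚ (AlgebraicClosure ℚ), dscFieldC E M P ≤ dscFieldC E M' P')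
    (hleB : dscFieldBar M P ≤ dscFieldBar M' P') (haM : a ∣ M' * P') (hℓM : ¬ ℓ ∣ M' * P')
    (p : ℕ) (hp : p.Prime) (hpℓ : p ≠ ℓ)
    (u₁ u₂ : LaurentSeries A) (h₁ : DscGood M P A u₁) (h₂ : DscGood M P A u₂)
    (hred : coeffMap (residue A) u₁ = coeffMap (residue A) u₂)
    (hne : coeffMap (residue A) u₁ ≠ 0)
    (hdiv : ∀ Q : Place (AlgebraicClosure ℚ) (dscFieldBar M P),
      (p : ℤ) ∣ Q.ord h₁.gen - Q.ord h₂.gen) :
    ∃ g : dscFieldBar M P, g ^ p * h₂.gen = h₁.gen := by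
  have ha23 : a = 2 ∨ a = 3 := by rcases ha with ⟨-, h⟩ | ⟨-, h⟩ <;> simp [h]
  have hne2 : coeffMap (residue A) u₂ ≠ 0 := hred ▸ hne
  have hu₁ : u₁ ≠ 0 := fun h => hne (by rw [h, map_zero])
  have hu₂ : u₂ ≠ 0 := fun h => hne2 (by rw [h, map_zero])
  have hinj : Function.Injective (coeffMap A.subtype) := by
    intro x y hxy
    ext k
    have := congrArg (fun s => HahnSeries.coeff s k) hxy
    simpa using this
  have hg₁ : h₁.gen ≠ 0 := fun h => hu₁ (hinj (by rw [map_zero]; exact congrArg Subtype.val h))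
  have hg₂ : h₂.gen ≠ 0 := fun h => hu₂ (hinj (by rw [map_zero]; exact congrArg Subtype.val h))
  obtain ⟨Pinf, hPinf⟩ := dscd_cusp_place M P
  have hord : (p : ℤ) ∣ (coeffMap A.subtype u₁).order - (coeffMap A.subtype u₂).order := by
    have := hdiv Pinf
    rwa [hPinf _ hg₁, hPinf _ hg₂] at this
  have hn : 0 < 6 * (M' * P') * p :=
    Nat.mul_pos (Nat.mul_pos (by norm_num) (NeZero.pos (M' * P'))) hp.pos
  obtain ⟨E, hfin, ζ, hζ, v₁, v₂, y, e₁, e₂, m₁, m₂, hy⟩ :=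
    dscd_descend A M P (6 * (M' * P') * p) hn p hp u₁ u₂ h₁ h₂ hu₂ hord
  haveI := hfin
  haveI : IsDiscreteValuationRing (s18dVal A E) := s18d_isDVR A E hA
  obtain ⟨ϖ, hϖ⟩ := IsDiscreteValuationRing.exists_irreducible (s18dVal A E)
  haveI : CharZero (s18dVal A E) := ⟨fun a b h => by
    have h1 := congrArg (fun x : s18dVal A E => (x : E)) h
    simpa using h1⟩
  have hζp : IsPrimitiveRoot (ζ ^ (6 * (M' * P'))) p := hζ.pow hn (by ring)
  have hζ6 : IsPrimitiveRoot (ζ ^ p) (6 * (M' * P')) := hζ.pow hn (by ring)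
  have hv₂0 : v₂ ≠ 0 := fun h => hu₂ (by rw [← e₂, h, map_zero])
  have hℓmem := s18d_natCast_mem (ℓ := ℓ) A E hA
  have hpu : IsUnit ((p : ℕ) : s18dVal A E) := by
    have hcop : Nat.Coprime p ℓ := (Nat.coprime_primes hp Fact.out).mpr hpℓ
    obtain ⟨c, b, hab⟩ : ∃ c b : ℤ, c * p + b * ℓ = 1 := by
      have := Int.gcd_eq_gcd_ab p ℓ
      rw [Int.gcd_natCast_natCast, hcop.gcd_eq_one] at this
      exact ⟨Int.gcdA p ℓ, Int.gcdB p ℓ, by push_cast at this; linarith⟩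
    have h1 : ((c : s18dVal A E)) * (p : s18dVal A E) =
        1 - (b : s18dVal A E) * (ℓ : s18dVal A E) := by
      have := congrArg (Int.cast : ℤ → s18dVal A E) hab
      push_cast at this
      linear_combination this
    have h2 : IsUnit (1 - (b : s18dVal A E) * (ℓ : s18dVal A E)) := by
      by_contra hnu
      have h3 : (1 - (b : s18dVal A E) * (ℓ : s18dVal A E)) ∈ maximalIdeal (s18dVal A E) := hnu
      have h4 : (b : s18dVal A E) * (ℓ : s18dVal A E) ∈ maximalIdeal (s18dVal A E) :=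
        Ideal.mul_mem_left _ _ hℓmem
      have h5 := Ideal.add_mem _ h3 h4
      rw [sub_add_cancel] at h5
      exact (Ideal.ne_top_iff_one _).mp (maximalIdeal.isMaximal _).ne_top h5
    rw [← h1] at h2
    exact isUnit_of_mul_isUnit_right h2
  have hredv : s18vRes (s18dVal A E) v₁ = s18vRes (s18dVal A E) v₂ := by
    rw [s18d_res_eq_iff, e₁, e₂]; exact hred
  have hnev : s18vRes (s18dVal A E) v₁ ≠ 0 := by
    intro h0
    have := (s18d_res_eq_iff A E v₁ 0).mp (by rw [h0, map_zero])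
    rw [e₁, map_zero, map_zero] at this
    exact hne this
  -- level `M = a N`
  have hle : dscFieldC E M P ≤ dscFieldC E M' P' := hleE E
  have hmem : s18hq a (s18hExp a) E ∈ dscFieldC E M' P' := dsch_mem E a ha23 M' P' haM
  obtain ⟨S, S', h0, hinf⟩ := dscrh_RH_small A E s18h_identity_two s18h_identity_three M P hℓN hA a ha ha23
    M' P' hC.level hC'.level hle hleB hℓM ϖ hϖ (ζ ^ p) hζ6 p hp hpℓ v₁ v₂ m₁ m₂ hv₂0 y hy
    (by
      intro k₁ k₂ Q
      have q₁ : (⟨_, k₁⟩ : dscFieldBar M P) = h₁.gen :=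
        Subtype.ext (by
          show s18dUp E (s18vIncl (s18dVal A E) E v₁) = coeffMap A.subtype u₁
          rw [s18d_up_incl, e₁])
      have q₂ : (⟨_, k₂⟩ : dscFieldBar M P) = h₂.gen :=
        Subtype.ext (by
          show s18dUp E (s18vIncl (s18dVal A E) E v₂) = coeffMap A.subtype u₂
          rw [s18d_up_incl, e₂])
      rw [q₁, q₂]
      exact hdiv Q) hmem
  have hcoordh := dsch_coord (L₀ := E) hϖ a ha23 M' P' hmem (hC'.coord E ϖ hϖ)
  have hyM := s18c_numberfield hϖ _ _ hcoordh p hp hpu (ζ ^ (6 * (M' * P'))) hζp v₁ v₂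
    (hle m₁) (hle m₂) hredv hnev y hy S S' h0 hinf
  -- descent of the level
  have hc₁ := hC.coord E ϖ hϖ
  have hc₂ := hC'.coord E ϖ hϖ
  have hyF := s18c_level_descent hϖ _ _ hle ⟨jqModC E, dsc_j_mem E M P⟩ hc₁ hc₂ p hp hpu
    (ζ ^ (6 * (M' * P'))) hζp v₁ v₂ m₁ m₂ hredv hnev y hy hyM
  refine ⟨⟨s18dUp E y, dscd_up_mem E M P y hyF⟩, Subtype.ext ?_⟩
  show s18dUp E y ^ p * coeffMap A.subtype u₂ = coeffMap A.subtype u₁
  have := congrArg (s18dUp E) hy
  rw [map_mul, map_pow, s18d_up_incl, s18d_up_incl, e₁, e₂] at this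
  exact this

/-- `ℓ ∈ {2, 3}`, level `(M, 1)` : the auxiliary level is `(M, 1)` itself if `a = 5 - ℓ` divides
`M`, and the `X₁`-type level `(a·M, 1)` otherwise (`dsc_level_le`). -/
theorem dsc_core_small (M : ℕ) [NeZero M] {ℓ : ℕ} [Fact ℓ.Prime]
    (A : ValuationSubring (AlgebraicClosure ℚ)) (hC : DscCoreLevel A M 1)
    (hCa : ∀ a : ℕ, a = 2 ∨ a = 3 → ¬ ℓ ∣ a → ¬ a ∣ M → DscCoreLevel A (a * M) 1)
    (hℓN : ¬ ℓ ∣ M) (hA : A.LiesOverPrime ℓ)
    (hℓ : ℓ < 5) (p : ℕ) (hp : p.Prime) (hpℓ : p ≠ ℓ)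
    (u₁ u₂ : LaurentSeries A) (h₁ : DscGood M 1 A u₁) (h₂ : DscGood M 1 A u₂)
    (hred : coeffMap (residue A) u₁ = coeffMap (residue A) u₂)
    (hne : coeffMap (residue A) u₁ ≠ 0)
    (hdiv : ∀ Q : Place (AlgebraicClosure ℚ) (dscFieldBar M 1),
      (p : ℤ) ∣ Q.ord h₁.gen - Q.ord h₂.gen) :
    ∃ g : dscFieldBar M 1, g ^ p * h₂.gen = h₁.gen := by
  have hℓp : ℓ.Prime := Fact.out
  have hℓN1 : ¬ ℓ ∣ M * 1 := by rwa [mul_one]
  have h23 : ℓ = 2 ∨ ℓ = 3 := by
    have h2 := hℓp.two_le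
    interval_cases ℓ
    · left; rfl
    · right; rfl
    · exact absurd hℓp (by decide)
  have key : ∀ (a : ℕ) [NeZero a], ((ℓ = 2 ∧ a = 3) ∨ (ℓ = 3 ∧ a = 2)) → ¬ ℓ ∣ a →
      ∃ g : dscFieldBar M 1, g ^ p * h₂.gen = h₁.gen := by
    intro a _ ha hℓa
    have ha23 : a = 2 ∨ a = 3 := by rcases ha with ⟨-, h⟩ | ⟨-, h⟩ <;> simp [h]
    by_cases haM : a ∣ M
    · -- `h_a` already lives at level `(M, 1)`
      exact dsc_core_small_aux M 1 A hC hℓN1 hA a ha M 1 hC (fun _ => le_rfl) le_rfl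
        (by rwa [mul_one]) hℓN1 p hp hpℓ u₁ u₂ h₁ h₂ hred hne hdiv
    · -- auxiliary level `(a·M, 1)`
      haveI : NeZero (a * M) := ⟨Nat.mul_ne_zero (NeZero.ne a) (NeZero.ne M)⟩
      have hℓM : ¬ ℓ ∣ a * M * 1 := fun h =>
        ((Nat.Prime.dvd_mul hℓp).mp (by rwa [mul_one] at h)).elim hℓa hℓN
      exact dsc_core_small_aux M 1 A hC hℓN1 hA a ha (a * M) 1 (hCa a ha23 hℓa haM)
        (fun E => dsc_level_le E M a)
        (dsc_bar_level_le M a) (by rw [mul_one]; exact dvd_mul_right a M) hℓM p hp hpℓ u₁ u₂ h₁ h₂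
        hred hne hdiv
  rcases h23 with h2 | h3
  · haveI : NeZero 3 := ⟨by norm_num⟩
    exact key 3 (Or.inl ⟨h2, rfl⟩) (by rw [h2]; decide)
  · haveI : NeZero 2 := ⟨by norm_num⟩
    exact key 2 (Or.inr ⟨h3, rfl⟩) (by rw [h3]; decide)

end Assembly

end Fermat.Agent.DS
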