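import Mathlib
import Fermat.Agent.DS.C.Core.Large
import Fermat.Agent.DS.C.Core.Small
import Fermat.Agent.DS.C.Core.Level

/-!
# Program DS, package (C), row C4 (S18′) : THE CORE CLAIM at level `(M, 1)` (`dsc_core_of_igusa`)

The `Γ₁`-analogue of `s18_core` (`S18/A/Spec.lean`): two good integral elements
`u₁, u₂ ∈ 𝔸((q))` of level `(M, 1)` (`ℓ ∤ M`) with the same nonzero reduction and
`p ∣ ord_Q(u₁/u₂)` at all places `Q` of `dscFieldBar M 1` (`p ≠ ℓ` prime) differ by a `p`-th power.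
Case split `ℓ ≥ 5` (`dsc_core_large`) / `ℓ ∈ {2, 3}` (`dsc_core_small`).

* `dsc_core_of_level`  : from the inputs `DscCoreLevel 𝔸 M' 1`, `M' ∈ {M, 2M, 3M}`;
* `dsc_core_of_igusa`  : from IGUSA (`DscIgusaAt M' ℓ`, row C3) at the levels `M' ∈ {M, 2M, 3M}` ONLY;
  everything else (level datum C1c/C2, V′, D′, RH, theorem (T)) is proved.

The final `dsc_core` (no hypothesis) is in `Core/Top.lean`.
-/

set_option autoImplicit false
set_option linter.unusedSectionVars false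
set_option synthInstance.maxHeartbeats 400000

noncomputable section

namespace Fermat.Agent.DS

open ModularCurve AlgebraicCurve IsLocalRing

variable (M : ℕ) [NeZero M] {ℓ : ℕ} [Fact ℓ.Prime]
variable (A : ValuationSubring (AlgebraicClosure ℚ))

/-- the core claim at level `(M, 1)` from the level-specific inputs at the levels
`M' ∈ {M, 2M, 3M}`. -/
theorem dsc_core_of_level (hC : DscCoreLevel A M 1)
    (hCa : ∀ a : ℕ, a = 2 ∨ a = 3 → ¬ ℓ ∣ a → ¬ a ∣ M → DscCoreLevel A (a * M) 1)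
    (hℓ : ¬ ℓ ∣ M) (hA : A.LiesOverPrime ℓ) (p : ℕ) (hp : p.Prime)
    (hpℓ : p ≠ ℓ)
    (u₁ u₂ : LaurentSeries A) (h₁ : DscGood M 1 A u₁) (h₂ : DscGood M 1 A u₂)
    (hred : coeffMap (residue A) u₁ = coeffMap (residue A) u₂)
    (hne : coeffMap (residue A) u₁ ≠ 0)
    (hdiv : ∀ Q : Place (AlgebraicClosure ℚ) (dscFieldBar M 1),
      (p : ℤ) ∣ Q.ord h₁.gen - Q.ord h₂.gen) :
    ∃ g : dscFieldBar M 1, g ^ p * h₂.gen = h₁.gen := by
  rcases lt_or_ge ℓ 5 with h5 | h5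
  · exact dsc_core_small M A hC hCa hℓ hA h5 p hp hpℓ u₁ u₂ h₁ h₂ hred hne hdiv
  · exact dsc_core_large M 1 A hC (by rwa [mul_one]) hA h5 p hp hpℓ u₁ u₂ h₁ h₂ hred hne hdiv

/-- THE CORE CLAIM at level `(M, 1)` = `X₁(M)`, for every residue characteristic `ℓ ∤ M`
(including `2, 3`) and every prime `p ≠ ℓ`, from IGUSA at the levels `M' ∈ {M, 2M, 3M}`. -/
theorem dsc_core_of_igusa (hI : DscIgusaAt M ℓ)
    (hIa : ∀ a : ℕ, a = 2 ∨ a = 3 → ¬ ℓ ∣ a → ¬ a ∣ M → DscIgusaAt (a * M) ℓ)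
    (hℓ : ¬ ℓ ∣ M) (hA : A.LiesOverPrime ℓ) (p : ℕ) (hp : p.Prime)
    (hpℓ : p ≠ ℓ)
    (u₁ u₂ : LaurentSeries A) (h₁ : DscGood M 1 A u₁) (h₂ : DscGood M 1 A u₂)
    (hred : coeffMap (residue A) u₁ = coeffMap (residue A) u₂)
    (hne : coeffMap (residue A) u₁ ≠ 0)
    (hdiv : ∀ Q : Place (AlgebraicClosure ℚ) (dscFieldBar M 1),
      (p : ℤ) ∣ Q.ord h₁.gen - Q.ord h₂.gen) :
    ∃ g : dscFieldBar M 1, g ^ p * h₂.gen = h₁.gen := by
  refine dsc_core_of_level M A (dsc_coreLevel_one M A hA hI) ?_ hℓ hA p hp hpℓ u₁ u₂ h₁ h₂ hred hne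
    hdiv
  intro a ha hℓa haM
  haveI : NeZero (a * M) :=
    ⟨Nat.mul_ne_zero (by rcases ha with rfl | rfl <;> norm_num) (NeZero.ne M)⟩
  exact dsc_coreLevel_one (a * M) A hA (hIa a ha hℓa haM)

end Fermat.Agent.DS
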