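import Mathlib
import Fermat.Agent.DS.C.Core.Main
import Fermat.Agent.DS.C.V.Inputs

/-!
# Program DS, package (C), row C4 (S18′) : `dsc_core` (HUB)

`dsc_core` = `dsc_core_of_igusa` (`Core/Main.lean`, proved) applied to the IGUSA producer at the
levels `M' ∈ {M, 2M, 3M}`, `6 ≤ M`.  The ONLY input still open is `dscv_inputs_one` (row C3,
helper9's `dscig_igusa`; currently helper3's private stub `V/Inputs.lean`, whose header contains the
checked hub text): when C3 lands, `V/Inputs.lean` becomes the hub and this file is unchanged.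
-/

set_option autoImplicit false
set_option linter.unusedSectionVars false
set_option synthInstance.maxHeartbeats 400000

noncomputable section

namespace Fermat.Agent.DS

open ModularCurve AlgebraicCurve IsLocalRing Fermat.Agent.S28

variable (M : ℕ) [NeZero M] {ℓ : ℕ} [Fact ℓ.Prime]
variable (A : ValuationSubring (AlgebraicClosure ℚ))

/-- IGUSA at the level `(M, 1)`, `6 ≤ M`, `ℓ ∤ M` (from `dscv_inputs_one`). -/
theorem dsc_igusaAt (hM : 6 ≤ M) (hℓ : ¬ ℓ ∣ M) : DscIgusaAt M ℓ := by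
  refine dsc_igusaAt_of M (kBar ℓ) (fun _ => ?_)
  obtain ⟨d, h0, hI⟩ := dscv_inputs_one M hM
  exact ⟨d, h0, hI ℓ hℓ⟩

/-- THE CORE CLAIM at level `(M, 1)` = `X₁(M)`, `6 ≤ M`, for every residue characteristic `ℓ ∤ M`
(including `2, 3`) and every prime `p ≠ ℓ`. -/
theorem dsc_core (hM : 6 ≤ M) (hℓ : ¬ ℓ ∣ M) (hA : A.LiesOverPrime ℓ) (p : ℕ) (hp : p.Prime)
    (hpℓ : p ≠ ℓ)
    (u₁ u₂ : LaurentSeries A) (h₁ : DscGood M 1 A u₁) (h₂ : DscGood M 1 A u₂)
    (hred : coeffMap (residue A) u₁ = coeffMap (residue A) u₂)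
    (hne : coeffMap (residue A) u₁ ≠ 0)
    (hdiv : ∀ Q : Place (AlgebraicClosure ℚ) (dscFieldBar M 1),
      (p : ℤ) ∣ Q.ord h₁.gen - Q.ord h₂.gen) :
    ∃ g : dscFieldBar M 1, g ^ p * h₂.gen = h₁.gen := by
  have hℓp : ℓ.Prime := Fact.out
  refine dsc_core_of_igusa M A (dsc_igusaAt M hM hℓ) ?_ hℓ hA p hp hpℓ u₁ u₂ h₁ h₂ hred hne hdiv
  intro a ha hℓa haM
  haveI : NeZero (a * M) :=
    ⟨Nat.mul_ne_zero (by rcases ha with rfl | rfl <;> norm_num) (NeZero.ne M)⟩
  refine dsc_igusaAt (a * M) ?_ (fun h => ((Nat.Prime.dvd_mul hℓp).mp h).elim hℓa hℓ)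
  have h1 : 1 ≤ a := by rcases ha with rfl | rfl <;> norm_num
  calc 6 ≤ M := hM
    _ = 1 * M := (one_mul M).symm
    _ ≤ a * M := Nat.mul_le_mul_right M h1

end Fermat.Agent.DS
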